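/-
S58, cell [KL-COUNT] (helper18), abstract part: counting the degree of `A / (X^q - X)^2` in lowest
terms from the local behaviour of `A` at the points of a finite field `F` (`q = |F|`).

If `A` has degree `2 q + 1` and at every `c ∈ F` the order of vanishing of `A` is `0`, `1`, `≥ 2`
according as `n c = 2, 1, 0`, then `A / (X^q - X)^2 = A₁ / D₁` in lowest terms with
`max (deg A₁) (deg D₁) = 1 + ∑ c, n c`.
Prefix `s58c_`.
-/
import Mathlib

set_option autoImplicit false

namespace Fermat.Agent.S58

open Polynomial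

section Abs

variable {F : Type*} [Field F] [Fintype F]

theorem s58c_X_pow_card_sub_X_eq_prod : (X ^ Fintype.card F - X : F[X]) = ∏ c : F, (X - C c) := by
  have hmonic : (X ^ Fintype.card F - X : F[X]).Monic :=
    monic_X_pow_sub (by
      rw [degree_X]
      exact_mod_cast Fintype.one_lt_card)
  have hroots := FiniteField.roots_X_pow_card_sub_X F
  have hcard : Multiset.card (X ^ Fintype.card F - X : F[X]).roots =
      (X ^ Fintype.card F - X : F[X]).natDegree := by
    rw [hroots, FiniteField.X_pow_card_sub_X_natDegree_eq F Fintype.one_lt_card]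
    simp
  have := prod_multiset_X_sub_C_of_monic_of_roots_card_eq hmonic hcard
  rw [hroots] at this
  rw [← this]
  rfl

/-- **the abstract count.** -/
theorem s58c_abs (A : F[X]) (n : F → ℕ)
    (hdeg : A.natDegree = 2 * Fintype.card F + 1)
    (hn : ∀ c, n c ≤ 2)
    (h2 : ∀ c, n c = 2 → A.eval c ≠ 0)
    (h1 : ∀ c, n c = 1 → A.eval c = 0 ∧ (derivative A).eval c ≠ 0)
    (h0 : ∀ c, n c = 0 → A.eval c = 0 ∧ (derivative A).eval c = 0) :
    ∃ G A1 D1 : F[X], G ≠ 0 ∧ IsCoprime A1 D1 ∧ A = G * A1 ∧
      (X ^ Fintype.card F - X) ^ 2 = G * D1 ∧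
      max A1.natDegree D1.natDegree = 1 + ∑ c, n c := by
  classical
  have hA0 : A ≠ 0 := by
    rintro rfl
    simp at hdeg
  -- divisibility conditions
  have hd1 : ∀ c, (X - C c) ^ (2 - n c) ∣ A := by
    intro c
    have hc := hn c
    interval_cases hnc : n c
    · obtain ⟨e0, e1⟩ := h0 c hnc
      rw [← le_rootMultiplicity_iff hA0]
      exact (one_lt_rootMultiplicity_iff_isRoot hA0).mpr ⟨e0, e1⟩
    · rw [show 2 - 1 = 1 from rfl, pow_one, dvd_iff_isRoot]
      exact (h1 c hnc).1
    · simp
  have hd2 : ∀ c, 1 ≤ n c → ¬ (X - C c) ^ (3 - n c) ∣ A := by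
    intro c h1c hdvd
    have hc := hn c
    interval_cases hnc : n c
    · obtain ⟨e0, e1⟩ := h1 c hnc
      rw [show 3 - 1 = 2 from rfl, ← le_rootMultiplicity_iff hA0] at hdvd
      exact e1 ((one_lt_rootMultiplicity_iff_isRoot hA0).mp hdvd).2
    · rw [show 3 - 2 = 1 from rfl, pow_one, dvd_iff_isRoot] at hdvd
      exact h2 c hnc hdvd
  set G : F[X] := ∏ c : F, (X - C c) ^ (2 - n c) with hG
  set D1 : F[X] := ∏ c : F, (X - C c) ^ n c with hD1
  have hGD : (X ^ Fintype.card F - X) ^ 2 = G * D1 := by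
    rw [s58c_X_pow_card_sub_X_eq_prod, hG, hD1, ← Finset.prod_mul_distrib, ← Finset.prod_pow]
    refine Finset.prod_congr rfl fun c _ => ?_
    rw [← pow_add, Nat.sub_add_cancel (hn c)]
  have hGdvd : G ∣ A := by
    refine Finset.prod_dvd_of_coprime (fun c _ d _ hcd => ?_) (fun c _ => hd1 c)
    exact (isCoprime_X_sub_C_of_isUnit_sub (sub_ne_zero.mpr hcd).isUnit).pow
  obtain ⟨A1, hA1⟩ := hGdvd
  have hG0 : G ≠ 0 := by
    rintro h
    rw [h, zero_mul] at hA1
    exact hA0 hA1
  have hA10 : A1 ≠ 0 := by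
    rintro rfl
    rw [mul_zero] at hA1
    exact hA0 hA1
  refine ⟨G, A1, D1, hG0, ?_, hA1, hGD, ?_⟩
  · -- coprimality
    refine IsCoprime.prod_right fun c _ => ?_
    rcases Nat.eq_zero_or_pos (n c) with h | h
    · rw [h, pow_zero]
      exact isCoprime_one_right
    · refine IsCoprime.pow_right ?_
      refine (((irreducible_X_sub_C c).coprime_iff_not_dvd).mpr ?_).symm
      intro hdvd
      refine hd2 c h ?_
      have e : 3 - n c = (2 - n c) + 1 := by have := hn c; omega
      rw [e, pow_succ, hA1]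
      exact mul_dvd_mul (Finset.dvd_prod_of_mem (fun c : F => (X - C c) ^ (2 - n c))
        (Finset.mem_univ c)) hdvd
  · -- degrees
    have hGdeg : G.natDegree = ∑ c : F, (2 - n c) := by
      rw [hG, natDegree_prod_of_monic _ _ fun c _ => (monic_X_sub_C c).pow _]
      refine Finset.sum_congr rfl fun c _ => ?_
      rw [natDegree_pow, natDegree_X_sub_C, mul_one]
    have hDdeg : D1.natDegree = ∑ c : F, n c := by
      rw [hD1, natDegree_prod_of_monic _ _ fun c _ => (monic_X_sub_C c).pow _]
      refine Finset.sum_congr rfl fun c _ => ?_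
      rw [natDegree_pow, natDegree_X_sub_C, mul_one]
    have hsum : ∑ c : F, (2 - n c) + ∑ c : F, n c = 2 * Fintype.card F := by
      rw [← Finset.sum_add_distrib]
      have : ∀ c ∈ (Finset.univ : Finset F), (2 - n c) + n c = 2 := fun c _ =>
        Nat.sub_add_cancel (hn c)
      rw [Finset.sum_congr rfl this, Finset.sum_const, Finset.card_univ, smul_eq_mul, mul_comm]
    have hAdeg : A.natDegree = G.natDegree + A1.natDegree := by
      rw [hA1, natDegree_mul hG0 hA10]
    have : A1.natDegree = 1 + ∑ c : F, n c := by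
      rw [hdeg, hGdeg] at hAdeg
      omega
    rw [this, hDdeg]
    exact max_eq_left (by omega)

end Abs

end Fermat.Agent.S58
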