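/-
S58, cell [KL-COUNT] (helper18): the number of points of an elliptic curve over a finite field,
fibred over the `x`-line:  `#W(F) = 1 + ∑ c, #{y | (c, y) ∈ W}`, and `#{y | (c, y) ∈ W} ≤ 2`.
Prefix `s58c_`.
-/
import Mathlib

set_option autoImplicit false

namespace Fermat.Agent.S58

open Polynomial WeierstrassCurve WeierstrassCurve.Affine

section Points

variable {F : Type*} [Field F] [Fintype F] (W : WeierstrassCurve F)

open Classical in
/-- the number of points of `W` above `c` -/
noncomputable def s58c_n (c : F) : ℕ := (Finset.univ.filter fun y : F => W.toAffine.Equation c y).card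

open Classical in
theorem s58c_n_eq_card (c : F) : s58c_n W c = Fintype.card {y : F // W.toAffine.Equation c y} := by
  rw [s58c_n, Fintype.card_subtype]

/-- the fibration of the affine points over the `x`-line -/
noncomputable def s58c_pointEquiv [W.IsElliptic] :
    W.toAffine.Point ≃ Option (Σ c : F, {y : F // W.toAffine.Equation c y}) where
  toFun P := match P with
    | .zero => none
    | .some x y h => some ⟨x, y, h.1⟩
  invFun o := match o with
    | none => .zero
    | some ⟨c, y, h⟩ => .some c y (equation_iff_nonsingular.mp h)
  left_inv P := by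
    cases P <;> rfl
  right_inv o := by
    rcases o with _ | ⟨c, y, h⟩ <;> rfl

open Classical in
theorem s58c_card_point [W.IsElliptic] :
    Nat.card W.toAffine.Point = 1 + ∑ c : F, s58c_n W c := by
  rw [Nat.card_congr (s58c_pointEquiv W), Nat.card_eq_fintype_card, Fintype.card_option,
    Fintype.card_sigma, add_comm]
  congr 1
  exact Finset.sum_congr rfl fun c _ => (s58c_n_eq_card W c).symm

/-- at most two points above `c` -/
theorem s58c_n_le_two (c : F) : s58c_n W c ≤ 2 := by
  classical
  set p : F[X] := X ^ 2 + C (W.a₁ * c + W.a₃) * X - C (c ^ 3 + W.a₂ * c ^ 2 + W.a₄ * c + W.a₆)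
    with hp
  have hdeg : p.natDegree = 2 := by
    rw [hp]
    compute_degree!
  have hp0 : p ≠ 0 := by
    intro h
    rw [h] at hdeg
    simp at hdeg
  have hsub : (Finset.univ.filter fun y : F => W.toAffine.Equation c y) ⊆ p.roots.toFinset := by
    intro y hy
    rw [Finset.mem_filter] at hy
    rw [Multiset.mem_toFinset, mem_roots hp0, IsRoot.def, hp]
    have := (equation_iff c y).mp hy.2
    simp only [eval_sub, eval_add, eval_pow, eval_X, eval_mul, eval_C]
    linear_combination this
  calc s58c_n W c ≤ p.roots.toFinset.card := Finset.card_le_card hsub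
    _ ≤ Multiset.card p.roots := Multiset.toFinset_card_le _
    _ ≤ p.natDegree := card_roots' p
    _ = 2 := hdeg

end Points

end Fermat.Agent.S58
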