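/-
S58, cell [KL-COUNT] (helper18), the odd case: for an elliptic curve `W'` over `ZMod ℓ`, `ℓ` odd,
the `x`-coordinate of `Frob P₀ - P₀` is `A / (4 D²)`, `D = X^ℓ - X`,
`A = Ψ (1 + Ψ^((ℓ-1)/2))² - (b₂ + 4X + 4X^ℓ) D²`, `Ψ = 4X³ + b₂X² + 2b₄X + b₆`; here we count the
degree of this fraction in lowest terms: it is `#W'(ZMod ℓ)`.
Prefix `s58c_`.
-/
import Mathlib
import Fermat.Agent.S58.Count.Abs
import Fermat.Agent.S58.Count.Points

set_option autoImplicit false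

namespace Fermat.Agent.S58

open Polynomial WeierstrassCurve WeierstrassCurve.Affine

section Gen

variable {R : Type*} [CommRing R]

/-- the `2`-division polynomial `Ψ = 4X³ + b₂X² + 2b₄X + b₆` -/
noncomputable def s58c_Psi (W : WeierstrassCurve R) : R[X] :=
  4 * X ^ 3 + C W.b₂ * X ^ 2 + 2 * C W.b₄ * X + C W.b₆

theorem s58c_Psi_eval (W : WeierstrassCurve R) (c : R) :
    (s58c_Psi W).eval c = 4 * c ^ 3 + W.b₂ * c ^ 2 + 2 * W.b₄ * c + W.b₆ := by
  simp [s58c_Psi]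

theorem s58c_Psi_eval' (W : WeierstrassCurve R) (c : R) :
    (s58c_Psi W).eval c =
      4 * (c ^ 3 + W.a₂ * c ^ 2 + W.a₄ * c + W.a₆) + (W.a₁ * c + W.a₃) ^ 2 := by
  rw [s58c_Psi_eval, WeierstrassCurve.b₂, WeierstrassCurve.b₄, WeierstrassCurve.b₆]
  ring

theorem s58c_Psi_derivative_eval (W : WeierstrassCurve R) (c : R) :
    (derivative (s58c_Psi W)).eval c = 12 * c ^ 2 + 2 * W.b₂ * c + 2 * W.b₄ := by
  simp [s58c_Psi]
  ring

theorem s58c_Psi_natDegree_le (W : WeierstrassCurve R) : (s58c_Psi W).natDegree ≤ 3 := by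
  rw [s58c_Psi]
  compute_degree

/-- evaluation of `P S² - E D²` and of its derivative at a zero of `D` -/
theorem s58c_eval_shape (P S E D : R[X]) (c : R) (hD : D.eval c = 0) :
    (P * S ^ 2 - E * D ^ 2).eval c = P.eval c * S.eval c ^ 2 ∧
    (derivative (P * S ^ 2 - E * D ^ 2)).eval c =
      (derivative P).eval c * S.eval c ^ 2 +
        P.eval c * (2 * S.eval c * (derivative S).eval c) := by
  constructor
  · simp [hD]
  · simp [derivative_mul, derivative_pow, hD]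

end Gen

section Odd

variable (ℓ : ℕ) [Fact ℓ.Prime] (W' : WeierstrassCurve (ZMod ℓ))

/-- the numerator of `4 x(Frob P₀ - P₀)` -/
noncomputable def s58c_numOdd : (ZMod ℓ)[X] :=
  s58c_Psi W' * (1 + s58c_Psi W' ^ (ℓ / 2)) ^ 2 -
    (C W'.b₂ + 4 * X + 4 * X ^ ℓ) * (X ^ ℓ - X) ^ 2

variable {ℓ}

theorem s58c_two_ne_zero (hℓ : ℓ ≠ 2) : (2 : ZMod ℓ) ≠ 0 := by
  intro h
  have h2 : ((2 : ℕ) : ZMod ℓ) = 0 := by exact_mod_cast h
  rw [ZMod.natCast_eq_zero_iff] at h2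
  have hp : ℓ.Prime := Fact.out
  exact hℓ ((Nat.prime_dvd_prime_iff_eq hp Nat.prime_two).mp h2)

theorem s58c_four_ne_zero (hℓ : ℓ ≠ 2) : (4 : ZMod ℓ) ≠ 0 := by
  have : (4 : ZMod ℓ) = 2 * 2 := by norm_num
  rw [this]
  exact mul_ne_zero (s58c_two_ne_zero hℓ) (s58c_two_ne_zero hℓ)

theorem s58c_half (hℓ : ℓ ≠ 2) : ℓ = 2 * (ℓ / 2) + 1 := by
  have hp : ℓ.Prime := Fact.out
  rcases hp.eq_two_or_odd with h | h
  · exact absurd h hℓ
  · omega

theorem s58c_half_pos (hℓ : ℓ ≠ 2) : 1 ≤ ℓ / 2 := by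
  have hp : ℓ.Prime := Fact.out
  have := hp.two_le
  have := s58c_half hℓ
  omega

/-- the degree of the numerator -/
theorem s58c_numOdd_natDegree (hℓ : ℓ ≠ 2) : (s58c_numOdd ℓ W').natDegree = 2 * ℓ + 1 := by
  have hp : ℓ.Prime := Fact.out
  have h3 : 3 ≤ ℓ := by
    have := hp.two_le
    omega
  set h := ℓ / 2 with hh
  have hℓh : ℓ = 2 * h + 1 := s58c_half hℓ
  have hh1 : 1 ≤ h := s58c_half_pos hℓ
  set Ψ := s58c_Psi W' with hΨ
  -- `Ψ ^ ℓ = Ψ(X ^ ℓ)`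
  have hexp : Ψ ^ ℓ = 4 * X ^ (3 * ℓ) + C W'.b₂ * X ^ (2 * ℓ) + 2 * C W'.b₄ * X ^ ℓ + C W'.b₆ := by
    rw [← ZMod.expand_card, hΨ, s58c_Psi]
    simp only [map_add, map_mul, map_pow, expand_X, expand_C, map_ofNat]
    ring
  have hsplit : s58c_numOdd ℓ W' = C 4 * X ^ (2 * ℓ + 1) +
      (Ψ + 2 * Ψ ^ (h + 1) + (4 * X ^ (ℓ + 2) + 2 * C W'.b₂ * X ^ (ℓ + 1) + 2 * C W'.b₄ * X ^ ℓ +
        C W'.b₆ - 4 * X ^ 3 - C W'.b₂ * X ^ 2)) := by
    have e0 : Ψ ^ ℓ = Ψ ^ (2 * h + 1) := congrArg (fun n : ℕ => Ψ ^ n) hℓh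
    have e1 : Ψ * (1 + Ψ ^ h) ^ 2 = Ψ + 2 * Ψ ^ (h + 1) + Ψ ^ ℓ := by
      rw [e0]
      ring
    rw [s58c_numOdd, ← hΨ, ← hh, e1, hexp, map_ofNat]
    ring
  rw [hsplit]
  have hlead : (C (4 : ZMod ℓ) * X ^ (2 * ℓ + 1)).natDegree = 2 * ℓ + 1 :=
    natDegree_C_mul_X_pow _ _ (s58c_four_ne_zero hℓ)
  rw [natDegree_add_eq_left_of_natDegree_lt, hlead]
  rw [hlead]
  have hΨd : Ψ.natDegree ≤ 3 := s58c_Psi_natDegree_le W'
  have hΨp : (Ψ ^ (h + 1)).natDegree ≤ (h + 1) * 3 := by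
    refine natDegree_pow_le.trans ?_
    exact Nat.mul_le_mul_left _ hΨd
  have h2Ψp : (2 * Ψ ^ (h + 1)).natDegree ≤ (h + 1) * 3 := by
    have : (2 : (ZMod ℓ)[X]) = C 2 := (map_ofNat C 2).symm
    rw [this]
    exact (natDegree_C_mul_le _ _).trans hΨp
  have hrest : (4 * X ^ (ℓ + 2) + 2 * C W'.b₂ * X ^ (ℓ + 1) + 2 * C W'.b₄ * X ^ ℓ +
        C W'.b₆ - 4 * X ^ 3 - C W'.b₂ * X ^ 2 : (ZMod ℓ)[X]).natDegree ≤ ℓ + 2 := by
    compute_degree
    omega
  have hR : (Ψ + 2 * Ψ ^ (h + 1) + (4 * X ^ (ℓ + 2) + 2 * C W'.b₂ * X ^ (ℓ + 1) +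
      2 * C W'.b₄ * X ^ ℓ + C W'.b₆ - 4 * X ^ 3 - C W'.b₂ * X ^ 2)).natDegree ≤ 2 * ℓ := by
    refine (natDegree_add_le _ _).trans (max_le ((natDegree_add_le _ _).trans (max_le ?_ ?_)) ?_)
    · omega
    · omega
    · omega
  omega

end Odd


section OddLocal

variable {ℓ : ℕ} [Fact ℓ.Prime] (W' : WeierstrassCurve (ZMod ℓ))

/-- the equation at `(c, y)` in terms of `η = 2y + a₁c + a₃`: `η² = Ψ(c)` -/
theorem s58c_equation_iff_sq (hℓ : ℓ ≠ 2) (c y : ZMod ℓ) :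
    W'.toAffine.Equation c y ↔ (2 * y + W'.a₁ * c + W'.a₃) ^ 2 = (s58c_Psi W').eval c := by
  rw [equation_iff, s58c_Psi_eval']
  constructor
  · intro h
    linear_combination 4 * h
  · intro h
    apply mul_left_cancel₀ (s58c_four_ne_zero hℓ)
    linear_combination h

/-- the three cases at a point `c` of the `x`-line -/
theorem s58c_tricho (hℓ : ℓ ≠ 2) (c : ZMod ℓ) :
    ((s58c_Psi W').eval c = 0 ∧ s58c_n W' c = 1) ∨
    ((s58c_Psi W').eval c ≠ 0 ∧ (s58c_Psi W').eval c ^ (ℓ / 2) = 1 ∧ s58c_n W' c = 2) ∨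
    ((s58c_Psi W').eval c ^ (ℓ / 2) = -1 ∧ s58c_n W' c = 0) := by
  classical
  have h2 := s58c_two_ne_zero hℓ
  set v := (s58c_Psi W').eval c with hv
  set u := W'.a₁ * c + W'.a₃ with hu
  have heq : ∀ y, W'.toAffine.Equation c y ↔ (2 * y + u) ^ 2 = v := fun y => by
    rw [s58c_equation_iff_sq W' hℓ c y, hu, ← add_assoc]
  by_cases hv0 : v = 0
  · left
    refine ⟨hv0, ?_⟩
    rw [s58c_n, Finset.card_eq_one]
    refine ⟨-u * 2⁻¹, ?_⟩
    ext y
    rw [Finset.mem_filter, Finset.mem_singleton, heq, hv0]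
    simp only [Finset.mem_univ, true_and]
    constructor
    · intro h
      have h' : 2 * y + u = 0 := by simpa using h
      field_simp
      linear_combination h'
    · rintro rfl
      field_simp
      ring
  · right
    rcases ZMod.pow_div_two_eq_neg_one_or_one ℓ hv0 with h1 | h1
    · left
      refine ⟨hv0, h1, ?_⟩
      obtain ⟨η, hη⟩ := (ZMod.euler_criterion ℓ hv0).mpr h1
      have hη0 : η ≠ 0 := by
        rintro rfl
        rw [mul_zero] at hη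
        exact hv0 hη
      refine le_antisymm (s58c_n_le_two W' c) ?_
      rw [s58c_n]
      refine Finset.one_lt_card.mpr ⟨(η - u) * 2⁻¹, ?_, (-η - u) * 2⁻¹, ?_, ?_⟩
      · rw [Finset.mem_filter, heq]
        refine ⟨Finset.mem_univ _, ?_⟩
        rw [hη]
        field_simp
        ring
      · rw [Finset.mem_filter, heq]
        refine ⟨Finset.mem_univ _, ?_⟩
        rw [hη]
        field_simp
        ring
      · intro h
        have h' : (η - u) = (-η - u) := by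
          have := congrArg (· * 2) h
          simpa [mul_assoc, inv_mul_cancel₀ h2] using this
        have h'' : 2 * η = 0 := by linear_combination h'
        rcases mul_eq_zero.mp h'' with h3 | h3
        · exact h2 h3
        · exact hη0 h3
    · right
      refine ⟨h1, ?_⟩
      rw [s58c_n, Finset.card_eq_zero, Finset.filter_eq_empty_iff]
      intro y _ hy
      rw [heq] at hy
      have hsq : IsSquare v := ⟨2 * y + u, by rw [← hy, sq]⟩
      have := (ZMod.euler_criterion ℓ hv0).mp hsq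
      rw [h1] at this
      have h20 : (2 : ZMod ℓ) = 0 := by linear_combination (-1 : ZMod ℓ) * this
      exact h2 h20

variable [W'.IsElliptic]

/-- at a ramification point of the `x`-line, `Ψ'(c) ≠ 0` (nonsingularity) -/
theorem s58c_Psi_derivative_ne_zero (hℓ : ℓ ≠ 2) (c : ZMod ℓ)
    (hv : (s58c_Psi W').eval c = 0) (hn : s58c_n W' c = 1) :
    (derivative (s58c_Psi W')).eval c ≠ 0 := by
  classical
  rw [s58c_n, Finset.card_eq_one] at hn
  obtain ⟨y₀, hy₀⟩ := hn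
  have hmem : y₀ ∈ (Finset.univ.filter fun y : ZMod ℓ => W'.toAffine.Equation c y) := by
    rw [hy₀]
    exact Finset.mem_singleton_self _
  have heq : W'.toAffine.Equation c y₀ := (Finset.mem_filter.mp hmem).2
  have hη : 2 * y₀ + W'.a₁ * c + W'.a₃ = 0 := by
    have := (s58c_equation_iff_sq W' hℓ c y₀).mp heq
    rw [hv] at this
    simpa using this
  have hns : W'.toAffine.Nonsingular c y₀ := equation_iff_nonsingular.mp heq
  rw [nonsingular_iff] at hns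
  have hx : W'.a₁ * y₀ ≠ 3 * c ^ 2 + 2 * W'.a₂ * c + W'.a₄ := by
    rcases hns.2 with h | h
    · exact h
    · exfalso
      apply h
      linear_combination hη
  intro hd
  rw [s58c_Psi_derivative_eval, WeierstrassCurve.b₂, WeierstrassCurve.b₄] at hd
  apply hx
  apply mul_left_cancel₀ (s58c_four_ne_zero hℓ)
  linear_combination (-1 : ZMod ℓ) * hd + 2 * W'.a₁ * hη

/-- **[KL-COUNT], `ℓ` odd.** -/
theorem s58c_count_odd (hℓ : ℓ ≠ 2) :
    ∃ G A1 D1 : (ZMod ℓ)[X], G ≠ 0 ∧ IsCoprime A1 D1 ∧ s58c_numOdd ℓ W' = G * A1 ∧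
      4 * (X ^ ℓ - X) ^ 2 = G * D1 ∧
      max A1.natDegree D1.natDegree = Nat.card W'.toAffine.Point := by
  have h4 := s58c_four_ne_zero hℓ
  have hcard : Fintype.card (ZMod ℓ) = ℓ := ZMod.card ℓ
  have hD : ∀ c : ZMod ℓ, (X ^ ℓ - X : (ZMod ℓ)[X]).eval c = 0 := fun c => by
    simp [ZMod.pow_card]
  have hshape := fun c => s58c_eval_shape (s58c_Psi W') (1 + s58c_Psi W' ^ (ℓ / 2))
    (C W'.b₂ + 4 * X + 4 * X ^ ℓ) (X ^ ℓ - X) c (hD c)
  have hS : ∀ c : ZMod ℓ, (1 + s58c_Psi W' ^ (ℓ / 2)).eval c =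
      1 + (s58c_Psi W').eval c ^ (ℓ / 2) := fun c => by simp
  obtain ⟨G, A1, D1, hG, hcop, hA, hDD, hmax⟩ := s58c_abs (s58c_numOdd ℓ W') (s58c_n W')
    (by rw [hcard]; exact s58c_numOdd_natDegree W' hℓ) (s58c_n_le_two W')
    (fun c hc => by
      rcases s58c_tricho W' hℓ c with ⟨-, h⟩ | ⟨hv, h1, -⟩ | ⟨-, h⟩
      · omega
      · rw [s58c_numOdd, (hshape c).1, hS, h1]
        refine mul_ne_zero hv (pow_ne_zero _ ?_)
        norm_num
        exact s58c_two_ne_zero hℓ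
      · omega)
    (fun c hc => by
      rcases s58c_tricho W' hℓ c with ⟨hv, h⟩ | ⟨-, -, h⟩ | ⟨-, h⟩
      · rw [s58c_numOdd, (hshape c).1, (hshape c).2, hS, hv,
          zero_pow (by have := s58c_half_pos hℓ; omega)]
        refine ⟨by ring, ?_⟩
        have := s58c_Psi_derivative_ne_zero W' hℓ c hv h
        simpa using this
      · omega
      · omega)
    (fun c hc => by
      rcases s58c_tricho W' hℓ c with ⟨-, h⟩ | ⟨-, -, h⟩ | ⟨h1, -⟩
      · omega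
      · omega
      · rw [s58c_numOdd, (hshape c).1, (hshape c).2, hS, h1]
        constructor <;> ring)
  rw [hcard] at hDD
  refine ⟨G, A1, C 4 * D1, hG, ?_, hA, ?_, ?_⟩
  · exact (isCoprime_mul_unit_left_right (isUnit_C.mpr h4.isUnit) A1 D1).mpr hcop
  · rw [hDD, map_ofNat]
    ring
  · rw [natDegree_C_mul h4, hmax, s58c_card_point]

end OddLocal

end Fermat.Agent.S58
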