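/-
S58, cell [KL-COUNT] (helper18), the case `ℓ = 2`: for an elliptic curve `W'` over `ZMod 2` the
`x`-coordinate of `Frob P₀ - P₀` is `A / D²`, `D = X² - X`, with the explicit quintic `A` below
(the reduction of `n² + a₁ n D - (a₂ + x² + x) D²`, `n = y² + y + a₁x + a₃`, modulo the Weierstrass
equation, `2 = 0` and `aᵢ² = aᵢ`); the degree of this fraction in lowest terms is `#W'(ZMod 2)`.
Prefix `s58c_`.
-/
import Mathlib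
import Fermat.Agent.S58.Count.Abs
import Fermat.Agent.S58.Count.Points

set_option autoImplicit false

namespace Fermat.Agent.S58

open Polynomial WeierstrassCurve WeierstrassCurve.Affine

section Two

variable (W' : WeierstrassCurve (ZMod 2))

/-- the numerator of `x(Frob P₀ - P₀)` for `ℓ = 2` -/
noncomputable def s58c_numTwo : (ZMod 2)[X] :=
  X ^ 5 + C (W'.a₁ + 1) * X ^ 4 + C (W'.a₁ * W'.a₂ + W'.a₁ + W'.a₃) * X ^ 3 +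
    C (W'.a₁ * W'.a₃ + W'.a₁ * W'.a₄ + W'.a₂ * W'.a₃ + W'.a₄) * X ^ 2 +
    C (W'.a₁ * W'.a₃ + W'.a₁ * W'.a₆ + W'.a₃ * W'.a₄ + W'.a₄) * X +
    C (W'.a₃ * W'.a₆ + W'.a₃)

theorem s58c_numTwo_natDegree : (s58c_numTwo W').natDegree = 5 := by
  rw [s58c_numTwo]
  compute_degree!

theorem s58c_numTwo_eval (c : ZMod 2) : (s58c_numTwo W').eval c =
    c ^ 5 + (W'.a₁ + 1) * c ^ 4 + (W'.a₁ * W'.a₂ + W'.a₁ + W'.a₃) * c ^ 3 +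
      (W'.a₁ * W'.a₃ + W'.a₁ * W'.a₄ + W'.a₂ * W'.a₃ + W'.a₄) * c ^ 2 +
      (W'.a₁ * W'.a₃ + W'.a₁ * W'.a₆ + W'.a₃ * W'.a₄ + W'.a₄) * c +
      (W'.a₃ * W'.a₆ + W'.a₃) := by
  simp [s58c_numTwo]

theorem s58c_numTwo_derivative_eval (c : ZMod 2) : (derivative (s58c_numTwo W')).eval c =
    5 * c ^ 4 + 4 * (W'.a₁ + 1) * c ^ 3 + 3 * (W'.a₁ * W'.a₂ + W'.a₁ + W'.a₃) * c ^ 2 +
      2 * (W'.a₁ * W'.a₃ + W'.a₁ * W'.a₄ + W'.a₂ * W'.a₃ + W'.a₄) * c +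
      (W'.a₁ * W'.a₃ + W'.a₁ * W'.a₆ + W'.a₃ * W'.a₄ + W'.a₄) := by
  simp only [s58c_numTwo, derivative_add, derivative_mul, derivative_C, derivative_X_pow,
    derivative_X, eval_add, eval_mul, eval_C, eval_pow, eval_X, zero_mul, zero_add, mul_one,
    Nat.cast_ofNat, Nat.add_one_sub_one, add_zero, pow_one]
  ring

theorem s58c_n_two (c : ZMod 2) : s58c_n W' c = (Finset.univ.filter (fun y : ZMod 2 =>
    y ^ 2 + W'.a₁ * c * y + W'.a₃ * y = c ^ 3 + W'.a₂ * c ^ 2 + W'.a₄ * c + W'.a₆)).card := by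
  classical
  rw [s58c_n]
  congr 1
  ext y
  simp only [Finset.mem_filter, Finset.mem_univ, true_and]
  exact equation_iff c y

set_option maxRecDepth 100000 in
/-- the local analysis for all curves over `ZMod 2` at once -/
theorem s58c_two_local : ∀ a₁ a₂ a₃ a₄ a₆ c : ZMod 2,
    (WeierstrassCurve.mk a₁ a₂ a₃ a₄ a₆).Δ ≠ 0 →
    (((Finset.univ.filter (fun y : ZMod 2 =>
        y ^ 2 + a₁ * c * y + a₃ * y = c ^ 3 + a₂ * c ^ 2 + a₄ * c + a₆)).card = 2 →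
      c ^ 5 + (a₁ + 1) * c ^ 4 + (a₁ * a₂ + a₁ + a₃) * c ^ 3 +
        (a₁ * a₃ + a₁ * a₄ + a₂ * a₃ + a₄) * c ^ 2 + (a₁ * a₃ + a₁ * a₆ + a₃ * a₄ + a₄) * c +
        (a₃ * a₆ + a₃) ≠ 0) ∧
    ((Finset.univ.filter (fun y : ZMod 2 =>
        y ^ 2 + a₁ * c * y + a₃ * y = c ^ 3 + a₂ * c ^ 2 + a₄ * c + a₆)).card = 1 →
      c ^ 5 + (a₁ + 1) * c ^ 4 + (a₁ * a₂ + a₁ + a₃) * c ^ 3 +
        (a₁ * a₃ + a₁ * a₄ + a₂ * a₃ + a₄) * c ^ 2 + (a₁ * a₃ + a₁ * a₆ + a₃ * a₄ + a₄) * c +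
        (a₃ * a₆ + a₃) = 0 ∧
      5 * c ^ 4 + 4 * (a₁ + 1) * c ^ 3 + 3 * (a₁ * a₂ + a₁ + a₃) * c ^ 2 +
        2 * (a₁ * a₃ + a₁ * a₄ + a₂ * a₃ + a₄) * c + (a₁ * a₃ + a₁ * a₆ + a₃ * a₄ + a₄) ≠ 0) ∧
    ((Finset.univ.filter (fun y : ZMod 2 =>
        y ^ 2 + a₁ * c * y + a₃ * y = c ^ 3 + a₂ * c ^ 2 + a₄ * c + a₆)).card = 0 →
      c ^ 5 + (a₁ + 1) * c ^ 4 + (a₁ * a₂ + a₁ + a₃) * c ^ 3 +
        (a₁ * a₃ + a₁ * a₄ + a₂ * a₃ + a₄) * c ^ 2 + (a₁ * a₃ + a₁ * a₆ + a₃ * a₄ + a₄) * c +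
        (a₃ * a₆ + a₃) = 0 ∧
      5 * c ^ 4 + 4 * (a₁ + 1) * c ^ 3 + 3 * (a₁ * a₂ + a₁ + a₃) * c ^ 2 +
        2 * (a₁ * a₃ + a₁ * a₄ + a₂ * a₃ + a₄) * c + (a₁ * a₃ + a₁ * a₆ + a₃ * a₄ + a₄) = 0)) := by
  decide

variable [W'.IsElliptic]

/-- **[KL-COUNT], `ℓ = 2`.** -/
theorem s58c_count_two :
    ∃ G A1 D1 : (ZMod 2)[X], G ≠ 0 ∧ IsCoprime A1 D1 ∧ s58c_numTwo W' = G * A1 ∧
      (X ^ 2 - X) ^ 2 = G * D1 ∧
      max A1.natDegree D1.natDegree = Nat.card W'.toAffine.Point := by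
  have hcard : Fintype.card (ZMod 2) = 2 := ZMod.card 2
  have hΔ : (WeierstrassCurve.mk W'.a₁ W'.a₂ W'.a₃ W'.a₄ W'.a₆).Δ ≠ 0 := by
    have h := (WeierstrassCurve.isUnit_Δ W').ne_zero
    exact h
  have hloc := fun c => s58c_two_local W'.a₁ W'.a₂ W'.a₃ W'.a₄ W'.a₆ c hΔ
  obtain ⟨G, A1, D1, hG, hcop, hA, hDD, hmax⟩ := s58c_abs (s58c_numTwo W') (s58c_n W')
    (by rw [hcard]; exact s58c_numTwo_natDegree W') (s58c_n_le_two W')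
    (fun c hc => by
      rw [s58c_numTwo_eval]
      exact (hloc c).1 (by rw [← s58c_n_two]; exact hc))
    (fun c hc => by
      rw [s58c_numTwo_eval, s58c_numTwo_derivative_eval]
      exact (hloc c).2.1 (by rw [← s58c_n_two]; exact hc))
    (fun c hc => by
      rw [s58c_numTwo_eval, s58c_numTwo_derivative_eval]
      exact (hloc c).2.2 (by rw [← s58c_n_two]; exact hc))
  rw [hcard] at hDD
  exact ⟨G, A1, D1, hG, hcop, hA, hDD, by rw [hmax, s58c_card_point]⟩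

end Two

end Fermat.Agent.S58
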