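/-
S58, cell [KL-COUNT] (helper18): `N(X - 1) = #W'(𝔽_ℓ)`.

`Frob P₀ - P₀` is an affine point whose `x`-coordinate is `A₁(x) / D₁(x)` with `A₁`, `D₁` coprime
polynomials over `ZMod ℓ` and `max (deg A₁) (deg D₁) = #W'(𝔽_ℓ)`
(`Count/Odd.lean`, `Count/Two.lean`, `Count/Ident.lean`).  Prefix `s58c_`.
-/
import Mathlib
import Fermat.Agent.S58.Fun.Norm
import Fermat.Agent.S58.Count.Odd
import Fermat.Agent.S58.Count.Two
import Fermat.Agent.S58.Count.Ident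

set_option autoImplicit false
set_option linter.unusedSectionVars false

namespace Fermat.Agent.S58

open WeierstrassCurve WeierstrassCurve.Affine Polynomial

section Main

variable (ℓ : ℕ) [Fact ℓ.Prime] (W' : WeierstrassCurve (ZMod ℓ)) [W'.IsElliptic]
  (k : Type*) [Field k] [Algebra (ZMod ℓ) k]

theorem s58c_x_pow_ne : s58f_x ℓ W' k ^ ℓ ≠ s58f_x ℓ W' k := by
  intro h
  have h1 : algebraMap k[X] (s58f_K ℓ W' k) (X ^ ℓ - X) = 0 := by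
    rw [map_sub, map_pow]
    exact sub_eq_zero.mpr h
  have h2 := s58f_polyInj ℓ W' k (h1.trans (map_zero _).symm)
  exact FiniteField.X_pow_card_sub_X_ne_zero k (Fact.out : ℓ.Prime).one_lt h2

/-- `Frob P₀ - P₀` is an affine point, with an explicit `x`-coordinate. -/
theorem s58c_frob_sub :
    ∃ (x₃ y₃ : s58f_K ℓ W' k) (h₃ : (W'⁄(s58f_K ℓ W' k)).toAffine.Nonsingular x₃ y₃),
      s58f_act ℓ W' (s58f_K ℓ W' k) (X - 1) (s58f_P0 ℓ W' k) = Point.some x₃ y₃ h₃ ∧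
      x₃ * (s58f_x ℓ W' k ^ ℓ - s58f_x ℓ W' k) ^ 2 =
        (s58f_y ℓ W' k ^ ℓ + s58f_y ℓ W' k + (W'⁄(s58f_K ℓ W' k)).a₁ * s58f_x ℓ W' k +
            (W'⁄(s58f_K ℓ W' k)).a₃) ^ 2 +
          (W'⁄(s58f_K ℓ W' k)).a₁ *
            (s58f_y ℓ W' k ^ ℓ + s58f_y ℓ W' k + (W'⁄(s58f_K ℓ W' k)).a₁ * s58f_x ℓ W' k +
              (W'⁄(s58f_K ℓ W' k)).a₃) * (s58f_x ℓ W' k ^ ℓ - s58f_x ℓ W' k) -
          ((W'⁄(s58f_K ℓ W' k)).a₂ + s58f_x ℓ W' k ^ ℓ + s58f_x ℓ W' k) *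
            (s58f_x ℓ W' k ^ ℓ - s58f_x ℓ W' k) ^ 2 := by
  have hne := s58c_x_pow_ne ℓ W' k
  have hne' : s58f_x ℓ W' k ^ ℓ - s58f_x ℓ W' k ≠ 0 := sub_ne_zero.mpr hne
  obtain ⟨h', he⟩ := s58f_frob_some ℓ W' k
    ((Affine.equation_iff_nonsingular).mp (s58f_equation ℓ W' k))
  rw [s58f_act_sub, s58f_act_X, s58f_act_one]
  unfold s58f_P0
  rw [he, sub_eq_add_neg, Point.neg_some, Point.add_of_X_ne hne]
  refine ⟨_, _, _, rfl, ?_⟩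
  rw [Affine.addX, Affine.slope_of_X_ne hne, Affine.negY]
  field_simp
  ring


/-- The evaluation `(ZMod ℓ)[X] → K`, `X ↦ x`. -/
noncomputable def s58c_ev : (ZMod ℓ)[X] →+* s58f_K ℓ W' k :=
  (algebraMap k[X] (s58f_K ℓ W' k)).comp (mapRingHom (algebraMap (ZMod ℓ) k))

theorem s58c_ev_apply (p : (ZMod ℓ)[X]) :
    s58c_ev ℓ W' k p = algebraMap k[X] (s58f_K ℓ W' k) (p.map (algebraMap (ZMod ℓ) k)) := rfl

theorem s58c_ev_X : s58c_ev ℓ W' k X = s58f_x ℓ W' k := by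
  rw [s58c_ev_apply, Polynomial.map_X]
  rfl

theorem s58c_ev_C (a : ZMod ℓ) :
    s58c_ev ℓ W' k (C a) = algebraMap (ZMod ℓ) (s58f_K ℓ W' k) a := by
  rw [s58c_ev_apply, Polynomial.map_C, s58f_algebraMap_C,
    ← IsScalarTower.algebraMap_apply (ZMod ℓ) k (s58f_K ℓ W' k)]

theorem s58c_ev_injective : Function.Injective (s58c_ev ℓ W' k) :=
  (s58f_polyInj ℓ W' k).comp (Polynomial.map_injective _ (algebraMap (ZMod ℓ) k).injective)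

theorem s58c_a₁ : (W'⁄(s58f_K ℓ W' k)).a₁ = algebraMap (ZMod ℓ) (s58f_K ℓ W' k) W'.a₁ := rfl
theorem s58c_a₂ : (W'⁄(s58f_K ℓ W' k)).a₂ = algebraMap (ZMod ℓ) (s58f_K ℓ W' k) W'.a₂ := rfl
theorem s58c_a₃ : (W'⁄(s58f_K ℓ W' k)).a₃ = algebraMap (ZMod ℓ) (s58f_K ℓ W' k) W'.a₃ := rfl
theorem s58c_a₄ : (W'⁄(s58f_K ℓ W' k)).a₄ = algebraMap (ZMod ℓ) (s58f_K ℓ W' k) W'.a₄ := rfl
theorem s58c_a₆ : (W'⁄(s58f_K ℓ W' k)).a₆ = algebraMap (ZMod ℓ) (s58f_K ℓ W' k) W'.a₆ := rfl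

theorem s58c_a_pow (a : ZMod ℓ) :
    algebraMap (ZMod ℓ) (s58f_K ℓ W' k) a ^ ℓ = algebraMap (ZMod ℓ) (s58f_K ℓ W' k) a := by
  rw [← map_pow, ZMod.pow_card]

instance s58c_charP : CharP (s58f_K ℓ W' k) ℓ :=
  charP_of_injective_algebraMap (algebraMap (ZMod ℓ) (s58f_K ℓ W' k)).injective ℓ

theorem s58c_weq :
    s58f_y ℓ W' k ^ 2 + (W'⁄(s58f_K ℓ W' k)).a₁ * s58f_x ℓ W' k * s58f_y ℓ W' k +
        (W'⁄(s58f_K ℓ W' k)).a₃ * s58f_y ℓ W' k =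
      s58f_x ℓ W' k ^ 3 + (W'⁄(s58f_K ℓ W' k)).a₂ * s58f_x ℓ W' k ^ 2 +
        (W'⁄(s58f_K ℓ W' k)).a₄ * s58f_x ℓ W' k + (W'⁄(s58f_K ℓ W' k)).a₆ :=
  (Affine.equation_iff _ _).mp (s58f_equation ℓ W' k)

end Main

section Finish

variable {k0 k F : Type*} [Field k0] [Field k] [Field F] [Algebra k[X] F]

/-- The abstract last step: from `x₃ · ev Dn = ev N`, `N = G A₁`, `Dn = G D₁`. -/
theorem s58c_finish (hinj : Function.Injective (algebraMap k[X] F)) (φ : k0 →+* k)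
    {WF : WeierstrassCurve F} {x₃ y₃ : F} (h₃ : WF.toAffine.Nonsingular x₃ y₃)
    {N Dn G A1 D1 : k0[X]} (hDn : Dn ≠ 0) (hcop : IsCoprime A1 D1) (hN : N = G * A1)
    (hD : Dn = G * D1)
    (hx : x₃ * algebraMap k[X] F (Dn.map φ) = algebraMap k[X] F (N.map φ)) :
    s58p_RepA (k := k) (Point.some x₃ y₃ h₃) (A1.map φ) (D1.map φ) ∧
      s58p_degA (k := k) (Point.some x₃ y₃ h₃) = max A1.natDegree D1.natDegree := by
  have hG : G ≠ 0 := by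
    rintro rfl
    exact hDn (by rw [hD, zero_mul])
  have hD1 : D1 ≠ 0 := by
    rintro rfl
    exact hDn (by rw [hD, mul_zero])
  have hG' : algebraMap k[X] F (G.map φ) ≠ 0 := by
    intro h0
    have := hinj (h0.trans (map_zero _).symm)
    exact hG ((Polynomial.map_eq_zero φ).mp this)
  have hD1' : algebraMap k[X] F (D1.map φ) ≠ 0 := by
    intro h0
    have := hinj (h0.trans (map_zero _).symm)
    exact hD1 ((Polynomial.map_eq_zero φ).mp this)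
  have hcop' : IsCoprime (A1.map φ) (D1.map φ) := by
    have := hcop.map (mapRingHom φ)
    simpa only [coe_mapRingHom] using this
  have hx' : x₃ * algebraMap k[X] F (D1.map φ) = algebraMap k[X] F (A1.map φ) := by
    rw [hN, hD, Polynomial.map_mul, Polynomial.map_mul, map_mul, map_mul] at hx
    apply mul_left_cancel₀ hG'
    rw [← hx]
    ring
  have hr := s58p_repA_some h₃ hcop' hD1' hx'
  refine ⟨hr, ?_⟩
  rw [s58p_degA_eq hinj hr, natDegree_map, natDegree_map]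

end Finish

section Deg

variable (ℓ : ℕ) [Fact ℓ.Prime] (W' : WeierstrassCurve (ZMod ℓ)) [W'.IsElliptic]
  (k : Type*) [Field k] [Algebra (ZMod ℓ) k]

theorem s58c_ev_numOdd :
    s58c_ev ℓ W' k (s58c_numOdd ℓ W') =
      (4 * s58f_x ℓ W' k ^ 3 +
            ((W'⁄(s58f_K ℓ W' k)).a₁ ^ 2 + 4 * (W'⁄(s58f_K ℓ W' k)).a₂) * s58f_x ℓ W' k ^ 2 +
            2 * (2 * (W'⁄(s58f_K ℓ W' k)).a₄ +
              (W'⁄(s58f_K ℓ W' k)).a₁ * (W'⁄(s58f_K ℓ W' k)).a₃) * s58f_x ℓ W' k +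
            ((W'⁄(s58f_K ℓ W' k)).a₃ ^ 2 + 4 * (W'⁄(s58f_K ℓ W' k)).a₆)) *
          (1 + (4 * s58f_x ℓ W' k ^ 3 +
            ((W'⁄(s58f_K ℓ W' k)).a₁ ^ 2 + 4 * (W'⁄(s58f_K ℓ W' k)).a₂) * s58f_x ℓ W' k ^ 2 +
            2 * (2 * (W'⁄(s58f_K ℓ W' k)).a₄ +
              (W'⁄(s58f_K ℓ W' k)).a₁ * (W'⁄(s58f_K ℓ W' k)).a₃) * s58f_x ℓ W' k +
            ((W'⁄(s58f_K ℓ W' k)).a₃ ^ 2 + 4 * (W'⁄(s58f_K ℓ W' k)).a₆)) ^ (ℓ / 2)) ^ 2 -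
        (((W'⁄(s58f_K ℓ W' k)).a₁ ^ 2 + 4 * (W'⁄(s58f_K ℓ W' k)).a₂) + 4 * s58f_x ℓ W' k +
          4 * s58f_x ℓ W' k ^ ℓ) * (s58f_x ℓ W' k ^ ℓ - s58f_x ℓ W' k) ^ 2 := by
  rw [s58c_a₁, s58c_a₂, s58c_a₃, s58c_a₄, s58c_a₆]
  simp only [s58c_numOdd, s58c_Psi, WeierstrassCurve.b₂, WeierstrassCurve.b₄, WeierstrassCurve.b₆,
    map_sub, map_mul, map_add, map_pow, map_one, map_ofNat, s58c_ev_X, s58c_ev_C]

/-- **[KL-COUNT], `ℓ` odd**: the representation of `Frob P₀ - P₀` and its degree. -/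
theorem s58c_deg_odd (hℓ : ℓ ≠ 2) :
    s58p_degA (k := k) (s58f_act ℓ W' (s58f_K ℓ W' k) (X - 1) (s58f_P0 ℓ W' k)) =
      Nat.card W'.toAffine.Point := by
  obtain ⟨x₃, y₃, h₃, hP, hx₃⟩ := s58c_frob_sub ℓ W' k
  obtain ⟨G, A1, D1, hG, hcop, hN, hD, hmax⟩ := s58c_count_odd W' hℓ
  have hid := s58c_ident_odd (R := s58f_K ℓ W' k) ℓ (ℓ / 2) (s58c_half hℓ)
    (W'⁄(s58f_K ℓ W' k)).a₁ (W'⁄(s58f_K ℓ W' k)).a₂ (W'⁄(s58f_K ℓ W' k)).a₃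
    (W'⁄(s58f_K ℓ W' k)).a₄ (W'⁄(s58f_K ℓ W' k)).a₆ (s58f_x ℓ W' k) (s58f_y ℓ W' k)
    (by rw [s58c_a₁]; exact s58c_a_pow ℓ W' k _) (by rw [s58c_a₃]; exact s58c_a_pow ℓ W' k _)
    (s58c_weq ℓ W' k)
  rw [← hx₃, ← s58c_ev_numOdd] at hid
  have hDn : (4 * (X ^ ℓ - X) ^ 2 : (ZMod ℓ)[X]) ≠ 0 := by
    have h4 : (4 : (ZMod ℓ)[X]) ≠ 0 := by
      have := s58c_four_ne_zero hℓ
      intro h0
      apply this
      have h1 := congrArg (Polynomial.eval 0) h0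
      simpa using h1
    exact mul_ne_zero h4 (pow_ne_zero _
      (FiniteField.X_pow_card_sub_X_ne_zero (ZMod ℓ) (Fact.out : ℓ.Prime).one_lt))
  have hx : x₃ * algebraMap k[X] (s58f_K ℓ W' k)
      ((4 * (X ^ ℓ - X) ^ 2 : (ZMod ℓ)[X]).map (algebraMap (ZMod ℓ) k)) =
      algebraMap k[X] (s58f_K ℓ W' k) ((s58c_numOdd ℓ W').map (algebraMap (ZMod ℓ) k)) := by
    rw [← s58c_ev_apply, ← s58c_ev_apply, ← hid]
    simp only [map_sub, map_mul, map_pow, map_ofNat, s58c_ev_X]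
    ring
  rw [hP, (s58c_finish (s58f_polyInj ℓ W' k) (algebraMap (ZMod ℓ) k) h₃ hDn hcop hN hD hx).2, hmax]

end Deg

section DegTwo

variable (W' : WeierstrassCurve (ZMod 2)) [W'.IsElliptic]
  (k : Type*) [Field k] [Algebra (ZMod 2) k]

theorem s58c_ev_numTwo :
    s58c_ev 2 W' k (s58c_numTwo W') =
      s58f_x 2 W' k ^ 5 + ((W'⁄(s58f_K 2 W' k)).a₁ + 1) * s58f_x 2 W' k ^ 4 +
        ((W'⁄(s58f_K 2 W' k)).a₁ * (W'⁄(s58f_K 2 W' k)).a₂ + (W'⁄(s58f_K 2 W' k)).a₁ +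
          (W'⁄(s58f_K 2 W' k)).a₃) * s58f_x 2 W' k ^ 3 +
        ((W'⁄(s58f_K 2 W' k)).a₁ * (W'⁄(s58f_K 2 W' k)).a₃ +
          (W'⁄(s58f_K 2 W' k)).a₁ * (W'⁄(s58f_K 2 W' k)).a₄ +
          (W'⁄(s58f_K 2 W' k)).a₂ * (W'⁄(s58f_K 2 W' k)).a₃ +
          (W'⁄(s58f_K 2 W' k)).a₄) * s58f_x 2 W' k ^ 2 +
        ((W'⁄(s58f_K 2 W' k)).a₁ * (W'⁄(s58f_K 2 W' k)).a₃ +
          (W'⁄(s58f_K 2 W' k)).a₁ * (W'⁄(s58f_K 2 W' k)).a₆ +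
          (W'⁄(s58f_K 2 W' k)).a₃ * (W'⁄(s58f_K 2 W' k)).a₄ +
          (W'⁄(s58f_K 2 W' k)).a₄) * s58f_x 2 W' k +
        ((W'⁄(s58f_K 2 W' k)).a₃ * (W'⁄(s58f_K 2 W' k)).a₆ + (W'⁄(s58f_K 2 W' k)).a₃) := by
  rw [s58c_a₁, s58c_a₂, s58c_a₃, s58c_a₄, s58c_a₆]
  simp only [s58c_numTwo, map_mul, map_add, map_pow, map_one, s58c_ev_X, s58c_ev_C]

/-- **[KL-COUNT], `ℓ = 2`**. -/
theorem s58c_deg_two :
    s58p_degA (k := k) (s58f_act 2 W' (s58f_K 2 W' k) (X - 1) (s58f_P0 2 W' k)) =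
      Nat.card W'.toAffine.Point := by
  obtain ⟨x₃, y₃, h₃, hP, hx₃⟩ := s58c_frob_sub 2 W' k
  obtain ⟨G, A1, D1, hG, hcop, hN, hD, hmax⟩ := s58c_count_two W'
  have h2 : (2 : s58f_K 2 W' k) = 0 := by
    have := CharP.cast_eq_zero (s58f_K 2 W' k) 2
    exact_mod_cast this
  have hid := s58c_ident_two (R := s58f_K 2 W' k) h2
    (W'⁄(s58f_K 2 W' k)).a₁ (W'⁄(s58f_K 2 W' k)).a₂ (W'⁄(s58f_K 2 W' k)).a₃
    (W'⁄(s58f_K 2 W' k)).a₄ (W'⁄(s58f_K 2 W' k)).a₆ (s58f_x 2 W' k) (s58f_y 2 W' k)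
    (by rw [s58c_a₁]; exact s58c_a_pow 2 W' k _) (by rw [s58c_a₂]; exact s58c_a_pow 2 W' k _)
    (by rw [s58c_a₃]; exact s58c_a_pow 2 W' k _) (by rw [s58c_a₄]; exact s58c_a_pow 2 W' k _)
    (by rw [s58c_a₆]; exact s58c_a_pow 2 W' k _)
    (s58c_weq 2 W' k)
  rw [← hx₃, ← s58c_ev_numTwo] at hid
  have hDn : ((X ^ 2 - X) ^ 2 : (ZMod 2)[X]) ≠ 0 :=
    pow_ne_zero _ (FiniteField.X_pow_card_sub_X_ne_zero (ZMod 2) (by norm_num))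
  have hx : x₃ * algebraMap k[X] (s58f_K 2 W' k)
      (((X ^ 2 - X) ^ 2 : (ZMod 2)[X]).map (algebraMap (ZMod 2) k)) =
      algebraMap k[X] (s58f_K 2 W' k) ((s58c_numTwo W').map (algebraMap (ZMod 2) k)) := by
    rw [← s58c_ev_apply, ← s58c_ev_apply, ← hid]
    simp only [map_sub, map_pow, s58c_ev_X]
  rw [hP, (s58c_finish (s58f_polyInj 2 W' k) (algebraMap (ZMod 2) k) h₃ hDn hcop hN hD hx).2, hmax]

end DegTwo

section Final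

variable (ℓ : ℕ) [Fact ℓ.Prime] (W' : WeierstrassCurve (ZMod ℓ)) [W'.IsElliptic]
  (k : Type*) [Field k] [Algebra (ZMod ℓ) k]

/-- **[KL-COUNT]**: the degree of `x(Frob P₀ - P₀)` is the number of `𝔽_ℓ`-points. -/
theorem s58c_deg :
    s58p_degA (k := k) (s58f_act ℓ W' (s58f_K ℓ W' k) (X - 1) (s58f_P0 ℓ W' k)) =
      Nat.card W'.toAffine.Point := by
  by_cases hℓ : ℓ = 2
  · subst hℓ
    exact s58c_deg_two W' k
  · exact s58c_deg_odd ℓ W' k hℓ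

/-- **[KL-COUNT]** in terms of helper7's `s58f_N`. -/
theorem s58c_N_X_sub_one : s58f_N ℓ W' k (X - 1) = Nat.card W'.toAffine.Point :=
  s58c_deg ℓ W' k

end Final

end Fermat.Agent.S58
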