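/-
S58: the seam (S-FROB) as a closed term, from helper7's [FROB-ASM] and the point count
[KL-COUNT] (`s58c_N_X_sub_one`).
-/
import Mathlib
import Fermat.Agent.S58.Frob.Main
import Fermat.Agent.S58.Count.Main

set_option autoImplicit false

namespace Fermat.Agent.S58

/-- **(S-FROB)**: the Eichler–Shimura relation seam. -/
theorem s58c_frobSeam : s58_FrobSeam :=
  s58fa_frobSeam_of_count (fun ℓ _ W' _ k _ _ => s58c_N_X_sub_one ℓ W' k)

end Fermat.Agent.S58
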