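/-
S58, cell [KL-COUNT] (helper18): the numerator of `x(Frob P₀ - P₀)` as a polynomial in `x`.

In a commutative ring of characteristic `ℓ` with `aᵢ ^ ℓ = aᵢ` and a point `(x, y)` on the
Weierstrass equation, put `D = x^ℓ - x`, `n = y^ℓ + y + a₁x + a₃` (so that the chord through
`(x^ℓ, y^ℓ)` and `-(x, y)` has slope `n / D`).  Then
`n² + a₁ n D - (a₂ + x^ℓ + x) D²` (`= x(Frob P - P) · D²`) is a polynomial in `x` alone: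
* `ℓ` odd: `4 · (…) = Ψ (1 + Ψ^h)² - (b₂ + 4x + 4x^ℓ) D²`, `Ψ = 4x³ + b₂x² + 2b₄x + b₆`, `ℓ = 2h+1`;
* `ℓ = 2`: an explicit quintic.
Prefix `s58c_`.
-/
import Mathlib

set_option autoImplicit false

namespace Fermat.Agent.S58

section Ident

variable {R : Type*} [CommRing R]

/-- **the numerator, `ℓ` odd.** -/
theorem s58c_ident_odd (ℓ h : ℕ) [Fact ℓ.Prime] [CharP R ℓ] (hℓ : ℓ = 2 * h + 1)
    (a₁ a₂ a₃ a₄ a₆ x y : R) (ha₁ : a₁ ^ ℓ = a₁) (ha₃ : a₃ ^ ℓ = a₃)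
    (heq : y ^ 2 + a₁ * x * y + a₃ * y = x ^ 3 + a₂ * x ^ 2 + a₄ * x + a₆) :
    4 * ((y ^ ℓ + y + a₁ * x + a₃) ^ 2 + a₁ * (y ^ ℓ + y + a₁ * x + a₃) * (x ^ ℓ - x) -
        (a₂ + x ^ ℓ + x) * (x ^ ℓ - x) ^ 2) =
      (4 * x ^ 3 + (a₁ ^ 2 + 4 * a₂) * x ^ 2 + 2 * (2 * a₄ + a₁ * a₃) * x + (a₃ ^ 2 + 4 * a₆)) *
          (1 + (4 * x ^ 3 + (a₁ ^ 2 + 4 * a₂) * x ^ 2 + 2 * (2 * a₄ + a₁ * a₃) * x +
            (a₃ ^ 2 + 4 * a₆)) ^ h) ^ 2 -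
        ((a₁ ^ 2 + 4 * a₂) + 4 * x + 4 * x ^ ℓ) * (x ^ ℓ - x) ^ 2 := by
  set Ψ : R := 4 * x ^ 3 + (a₁ ^ 2 + 4 * a₂) * x ^ 2 + 2 * (2 * a₄ + a₁ * a₃) * x +
    (a₃ ^ 2 + 4 * a₆) with hΨ
  set η : R := 2 * y + a₁ * x + a₃ with hη
  have hη2 : η ^ 2 = Ψ := by
    rw [hη, hΨ]
    linear_combination 4 * heq
  have h2 : (2 : R) ^ ℓ = 2 := by
    have := map_ofNat (frobenius R ℓ) 2
    rwa [frobenius_def] at this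
  have hηℓ : η ^ ℓ = 2 * y ^ ℓ + a₁ * x ^ ℓ + a₃ := by
    rw [hη, add_pow_char, add_pow_char, mul_pow, mul_pow, h2, ha₁, ha₃]
  have hηΨ : η ^ ℓ = η * Ψ ^ h := by
    have e : η ^ ℓ = η ^ (2 * h + 1) := congrArg (fun n : ℕ => η ^ n) hℓ
    rw [e, pow_succ, pow_mul, hη2, mul_comm]
  have hT : 2 * y ^ ℓ + a₁ * x ^ ℓ + a₃ = η * Ψ ^ h := hηℓ.symm.trans hηΨ
  set P : R := Ψ ^ h with hP
  set Y : R := y ^ ℓ with hY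
  set X' : R := x ^ ℓ with hX'
  linear_combination (2 * Y + a₁ * X' + a₃ - η * P + 2 * η * (1 + P)) * hT +
    (1 + P) ^ 2 * hη2

/-- **the numerator, `ℓ = 2`.** -/
theorem s58c_ident_two (h2 : (2 : R) = 0) (a1 a2 a3 a4 a6 x y : R)
    (ha1 : a1 ^ 2 = a1) (ha2 : a2 ^ 2 = a2) (ha3 : a3 ^ 2 = a3) (ha4 : a4 ^ 2 = a4)
    (ha6 : a6 ^ 2 = a6)
    (heq : y ^ 2 + a1 * x * y + a3 * y = x ^ 3 + a2 * x ^ 2 + a4 * x + a6) :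
    (y ^ 2 + y + a1 * x + a3) ^ 2 + a1 * (y ^ 2 + y + a1 * x + a3) * (x ^ 2 - x) -
        (a2 + x ^ 2 + x) * (x ^ 2 - x) ^ 2 =
      x ^ 5 + (a1 + 1) * x ^ 4 + (a1 * a2 + a1 + a3) * x ^ 3 +
        (a1 * a3 + a1 * a4 + a2 * a3 + a4) * x ^ 2 + (a1 * a3 + a1 * a6 + a3 * a4 + a4) * x +
        (a3 * a6 + a3) := by
  linear_combination (exp := 1)
    (x^3 + x^2 * a1^2 + x^2 * a1 + x^2 * a2 + (-1) * x * y * a1 + (2) * x * a1 * a3 + (-1) * x * a1 + x * a4 + y^2 + (-1) * y * a3 + (2) * y + a3^2 + a6 + (1)) * heq +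
    (x^5 + x^4 * a2 + (-1) * x^3 * y * a1 + (-2) * x^3 * y + x^3 * a4 + x^3 + (-3) * x^2 * y * a3 + x^2 * y + x^2 * a6) * ha1 +
    (x^4) * ha2 +
    (x^3 + x^2 * a2 + (-3) * x * y * a1 + x * a4 + (-1) * y * a3 + (-1) * y + a6 + (1)) * ha3 +
    (x^2) * ha4 + ha6 +
    (x^5 * a1 + x^5 * a2 + (-1) * x^4 * y * a1 + x^4 * a1 * a2 + x^4 * a1 * a3 + (-1) * x^4 * a1 + x^4 * a4 + (-1) * x^3 * y * a1 * a2 + (-1) * x^3 * y * a1 + (-1) * x^3 * y * a3 + x^3 * y + x^3 * a1 * a2 * a3 + (-1) * x^3 * a1 * a2 + x^3 * a1 * a4 + x^3 * a2 * a4 + x^3 * a2 + x^3 * a6 + (-2) * x^2 * y * a1 * a3 + (-1) * x^2 * y * a1 * a4 + x^2 * y * a1 + (-1) * x^2 * y * a2 * a3 + x^2 * y * a2 + x^2 * a1 * a3 * a4 + (-1) * x^2 * a1 * a4 + x^2 * a1 * a6 + x^2 * a2 * a6 + (-1) * x * y * a1 * a3 + (-1) * x * y * a1 * a6 + (-1) * x * y *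 a3 * a4 + x * y * a4 + x * a1 * a3 * a6 + (-1) * x * a1 * a6 + x * a4 * a6 + (-1) * y * a3 * a6 + y * a6 + a6) * h2

end Ident

end Fermat.Agent.S58
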